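/-
M59 (S59 research call, RULING #47, SINK A), scratch cell (EVEN) (helper20).  Prefix `m59ev_`.

For EVEN level `M` the Legendre cover `lg_phiE : lg_F k M →ₐ[k] lg_E k M` has degree `≤ 2`, over any
field `k` with `2 ≠ 0`:  `t₂ ∈ F_2 ≤ F_M`, `φ(t₂) = t₂(q²) = t₄ (t₄ + 16)`, `λ (t₄ + 16) = 16`, hence
`φ(t₂) · λ² = 256 (1 - λ)`: `λ` is a root of `φ(t₂) X² + 256 X - 256 ∈ φ(F_M)[X]`.
-/
import Mathlib
import Fermat.Agent.S44.Res.RamInst
import Fermat.Agent.SS.Model.CuspsInst
import Fermat.Agent.JT3.Hauptmodul.Level4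

set_option autoImplicit false
set_option linter.unusedSectionVars false
set_option linter.style.haveILetI false

noncomputable section

namespace Fermat.Agent.M59

open Polynomial Fermat.Agent.JT3 Fermat.Agent.SS Fermat.Agent.S44 AlgebraicCurve ModularCurve

variable {k : Type*} [Field k] (M : ℕ) [NeZero M]

/-- `t₂ ∈ F_M` for even `M`. -/
theorem m59ev_t2_mem (hM : 2 ∣ M) : hm_t2 k ∈ lg_F k M :=
  full_degeneracyC_le (K := k) hM (ssm_cf_t2_mem_F2 k)

/-- `t₂` as an element of the level-`M` field. -/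
def m59ev_t2F (hM : 2 ∣ M) : lg_F k M := ⟨hm_t2 k, m59ev_t2_mem M hM⟩

/-- the quadratic relation in Laurent series: `t₂(q²) · λ² = 256 (1 - λ)`. -/
theorem m59ev_rel_series : hm_t2two k * hm_lam k ^ 2 = 256 * (1 - hm_lam k) := by
  have h1 := hm_t4_id_b k
  have h2 := hm_lam_mul k
  rw [h1]
  linear_combination (hm_lam k * hm_t4 k + 16) * h2

/-- the quadratic relation in `E`, along `φ`. -/
theorem m59ev_rel (hM : 2 ∣ M) :
    letI := algebraAlong (lg_phiE (L := k) (N := M))
    algebraMap (lg_F k M) (lg_E k M) (m59ev_t2F M hM) * (lg_lamE M : lg_E k M) ^ 2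
      = 256 * (1 - (lg_lamE M : lg_E k M)) := by
  letI := algebraAlong (lg_phiE (L := k) (N := M))
  apply Subtype.ext
  exact m59ev_rel_series (k := k)


section Degree

variable {F E : Type*} [Field F] [Field E] [Algebra F E]

/-- abstract: a root of `a X² + b X + c`, `a ≠ 0`, has minimal polynomial of degree `≤ 2`. -/
theorem m59ev_minpoly_le {a b c : F} (ha : a ≠ 0) {x : E}
    (hx : algebraMap F E a * x ^ 2 + algebraMap F E b * x + algebraMap F E c = 0) :
    IsIntegral F x ∧ (minpoly F x).natDegree ≤ 2 := by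
  set P : F[X] := C a * X ^ 2 + C b * X + C c with hP
  have hdeg : P.natDegree = 2 := natDegree_quadratic ha
  have hP0 : P ≠ 0 := by
    intro h
    rw [h, natDegree_zero] at hdeg
    exact absurd hdeg (by norm_num)
  have hroot : aeval x P = 0 := by
    rw [hP]
    simp only [map_add, map_mul, map_pow, aeval_C, aeval_X]
    exact hx
  have hint : IsIntegral F x := (isAlgebraic_iff_isIntegral).mp ⟨P, hP0, hroot⟩
  refine ⟨hint, ?_⟩
  have := natDegree_le_of_dvd (minpoly.dvd F x hroot) hP0
  rwa [hdeg] at this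

end Degree

/-- `λ` is integral of degree `≤ 2` over `φ(F_M)` for even `M`. -/
theorem m59ev_lam_minpoly_le (hM : 2 ∣ M) :
    letI := algebraAlong (lg_phiE (L := k) (N := M))
    IsIntegral (lg_F k M) (lg_lamE M : lg_E k M) ∧
      (minpoly (lg_F k M) (lg_lamE M : lg_E k M)).natDegree ≤ 2 := by
  letI := algebraAlong (lg_phiE (L := k) (N := M))
  have ht0 : m59ev_t2F (k := k) M hM ≠ 0 := by
    intro h
    have h' : hm_t2 k = 0 := congrArg Subtype.val h
    exact (hm_isUnit_t2 k).ne_zero h'
  refine m59ev_minpoly_le (a := m59ev_t2F (k := k) M hM) (b := 256) (c := -256) ht0 ?_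
  have h := m59ev_rel (k := k) M hM
  rw [map_neg, map_ofNat]
  linear_combination h

/-- **(EVEN)**: `[E : φ(F_M)] ≤ 2` for even `M`. -/
theorem m59ev_finrank_le_two (hM : 2 ∣ M) :
    finrankAlong k (lg_phiE (L := k) (N := M)) ≤ 2 := by
  letI := algebraAlong (lg_phiE (L := k) (N := M))
  obtain ⟨hint, hle⟩ := m59ev_lam_minpoly_le (k := k) M hM
  have hfin : finrankAlong k (lg_phiE (L := k) (N := M))
      = (minpoly (lg_F k M) (lg_lamE M : lg_E k M)).natDegree := by
    show Module.finrank (lg_F k M) (lg_E k M) = _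
    rw [← IntermediateField.adjoin.finrank hint, s44rr_hgen M, IntermediateField.finrank_top']
  rw [hfin]
  exact hle


/-- for even `M` an odd prime does not divide `[E : φ(F_M)]`, and `[E : φ(F_M)] < 2 p`
(twin of `s44rr_not_dvd_finrank`, `p ≥ 5` replaced by `p` odd and `2 ∣ M`). -/
theorem m59ev_not_dvd_finrank (hM : 2 ∣ M) (h2 : (2 : k) ≠ 0) (p : ℕ) (hp : p.Prime)
    (hp2 : p ≠ 2) :
    ¬ p ∣ finrankAlong k (lg_phiE (L := k) (N := M))
      ∧ finrankAlong k (lg_phiE (L := k) (N := M)) < 2 * p := by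
  have hle := m59ev_finrank_le_two (k := k) M hM
  have hpos := s44rr_finrank_pos (k := k) M h2
  have hp3 : 3 ≤ p := by
    have := hp.two_le
    omega
  refine ⟨fun hdvd => ?_, by omega⟩
  have := Nat.le_of_dvd hpos hdvd
  omega

/-- for even `M`, `E / φ(F_M)` is separable when the exponential characteristic of `k` is not `2`
(twin of `s44rr_sepAlong`). -/
theorem m59ev_sepAlong (hM : 2 ∣ M) (p : ℕ) [ExpChar k p] (hp2 : p ≠ 2) :
    ptw_SeparableAlong (lg_phiE (L := k) (N := M)) := by
  letI := algebraAlong (lg_phiE (L := k) (N := M))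
  haveI : ExpChar (lg_F k M) p :=
    expChar_of_injective_algebraMap (algebraMap k (lg_F k M)).injective p
  obtain ⟨hint, hle⟩ := m59ev_lam_minpoly_le (k := k) M hM
  have hirr := minpoly.irreducible hint
  have hsep : (minpoly (lg_F k M) (lg_lamE M : lg_E k M)).Separable := by
    rcases ‹ExpChar (lg_F k M) p› with _ | ⟨hprime⟩
    · exact hirr.separable
    · haveI : CharP (lg_F k M) p := ‹CharP (lg_F k M) p›
      rcases separable_or p hirr with h | ⟨-, g, -, hg⟩
      · exact h
      · exfalso
        have hdeg : (minpoly (lg_F k M) (lg_lamE M : lg_E k M)).natDegree = g.natDegree * p := by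
          rw [← hg, natDegree_expand]
        have hpos : 0 < (minpoly (lg_F k M) (lg_lamE M : lg_E k M)).natDegree :=
          minpoly.natDegree_pos hint
        have hp3 : 3 ≤ p := by
          have := hprime.two_le
          omega
        have hg1 : 1 ≤ g.natDegree := by
          by_contra hlt
          have : g.natDegree = 0 := by omega
          rw [this, zero_mul] at hdeg
          omega
        have : 1 * 3 ≤ g.natDegree * p := Nat.mul_le_mul hg1 hp3
        omega
  have hlamsep : IsSeparable (lg_F k M) (lg_lamE M : lg_E k M) := hsep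
  haveI : Algebra.IsSeparable (lg_F k M)
      (IntermediateField.adjoin (lg_F k M) {(lg_lamE M : lg_E k M)}) :=
    (IntermediateField.isSeparable_adjoin_simple_iff_isSeparable (lg_F k M) (lg_E k M)).mpr hlamsep
  rw [s44rr_hgen M] at this
  exact Algebra.IsSeparable.of_algHom (lg_F k M) (⊤ : IntermediateField (lg_F k M) (lg_E k M))
    (IntermediateField.topEquiv (F := lg_F k M) (E := lg_E k M)).symm.toAlgHom

end Fermat.Agent.M59
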