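/-
M59 block DTwin (helper20): the EVEN-LEVEL twin of `twfr_tower` (TW/Easy/Res/Tower.lean): value-group descent
along the Legendre cover for ANY exponent `p` prime to `2` (e.g. `p = 3 ^ n`), level `N` even.
-/
import Mathlib
import Fermat.Agent.M59.DTwin.Even
import Fermat.Agent.TW.Easy.Res.Tower

set_option autoImplicit false
set_option linter.style.haveILetI false
set_option linter.unusedSectionVars false
set_option linter.unusedVariables false

noncomputable section

namespace Fermat.Agent.M59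

open Fermat.Agent.SS Fermat.Agent.JT3 Fermat.Agent.S35 IntermediateField ModularCurve IsLocalRing
  AlgebraicCurve Polynomial Fermat.Agent.S44 Fermat.Agent.TW

variable (L : Type*) [Field L] (N : ℕ) [NeZero N]

/-- **value-group descent along the Legendre cover, even level, odd exponent.** -/
theorem m59ev_tower (hN : 2 ∣ N) (h2 : (2 : L) ≠ 0) (R' : ValuationSubring ↥(lg_E L N)) {p : ℕ}
    (hp0 : p ≠ 0) (hp2 : Nat.Coprime p 2)
    {x : ↥(lg_F L N)} (hx : x ≠ 0) {y' u' : ↥(lg_E L N)} (hu : u' ∈ R' ∧ u' ∉ R'.nonunits)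
    (h : lg_phiE (L := L) (N := N) x = u' * y' ^ p) :
    ∃ y : ↥(lg_F L N), y ≠ 0 ∧
      (lg_phiE (L := L) (N := N) x / lg_phiE (L := L) (N := N) y ^ p ∈ R' ∧
        lg_phiE (L := L) (N := N) x / lg_phiE (L := L) (N := N) y ^ p ∉ R'.nonunits) := by
  letI : Algebra ↥(lg_F L N) ↥(lg_E L N) := algebraAlong (lg_phiE (L := L) (N := N))
  haveI : FiniteDimensional ↥(lg_F L N) ↥(lg_E L N) := s44rr_finiteAlong (k := L) N h2
  have hle : Module.finrank ↥(lg_F L N) ↥(lg_E L N) ≤ 2 := m59ev_finrank_le_two (k := L) N hN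
  have hcop : ∀ d : ℕ, 0 < d → d ≤ Module.finrank ↥(lg_F L N) ↥(lg_E L N) → Nat.Coprime d p := by
    intro d hd0 hd
    have hd2 : d ≤ 2 := hd.trans hle
    interval_cases d
    · exact Nat.coprime_one_left p
    · exact hp2.symm
  exact twfr_descend (K := ↥(lg_F L N)) (K' := ↥(lg_E L N)) R' hp0 hcop hx hu h

end Fermat.Agent.M59
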